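import Fermat.Agent.Engine.TW.LocalBound
import Fermat.Agent.Engine.TW.Vanishing
import Fermat.Agent.Engine.Galois
import Fermat.Agent.DefRing.Burnside
import Fermat.Agent.Chebotarev.Main

/-!
# An auxiliary prime `R ≡ -1 (mod p)` for `p = 3`

In characteristic three the levels need a prime `≡ 2 (mod 3)`.  One is chosen with residual trace
of Frobenius non-zero: then no first order deformation ramifies there, so ramification may be
allowed at `R` at no cost.
-/

noncomputable section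

open IsLocalRing Fermat.Agent.DefRing Fermat.Agent.Deform Fermat.Agent.Engine

namespace Fermat.Agent.General

open Engine.TW ExtCitation

local notation "Ω" => AlgebraicClosure ℚ
local notation "Γ" => (AlgebraicClosure ℚ ≃ₐ[ℚ] AlgebraicClosure ℚ)

variable {k : Type} [Field k] {p : ℕ} [Fact p.Prime] [CharP k p] {ρ : MRep k}

/-- A trace zero matrix anticommuting with one of non-zero trace vanishes. -/
theorem eq_zero_of_anticommute (h2 : (2 : k) ≠ 0) {M X : Matrix (Fin 2) (Fin 2) k}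
    (hM : M.trace ≠ 0) (hX : X.trace = 0) (h : M * X = -(X * M)) : X = 0 := by
  rw [Matrix.trace_fin_two] at hM hX
  have e00 := congrFun (congrFun h 0) 0
  have e01 := congrFun (congrFun h 0) 1
  have e10 := congrFun (congrFun h 1) 0
  have e11 := congrFun (congrFun h 1) 1
  simp [Matrix.mul_apply, Fin.sum_univ_two] at e00 e01 e10 e11
  have hx : X 1 1 = -X 0 0 := by linear_combination hX
  rw [hx] at e01 e10 e11
  have a1 : (M 0 0 + M 1 1) * X 0 1 = 0 := by linear_combination e01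
  have a2 : (M 0 0 + M 1 1) * X 1 0 = 0 := by linear_combination e10
  have b1 := (mul_eq_zero.1 a1).resolve_left hM
  have b2 := (mul_eq_zero.1 a2).resolve_left hM
  rw [b1, b2] at e00 e11
  have c0 : (2 * M 0 0) * X 0 0 = 0 := by linear_combination e00
  have c1 : (2 * M 1 1) * X 0 0 = 0 := by linear_combination -e11
  have b0 : X 0 0 = 0 := by
    rcases mul_eq_zero.1 c0 with h0 | h0
    · rcases mul_eq_zero.1 c1 with h1 | h1
      · exact absurd (by rw [(mul_eq_zero.1 h0).resolve_left h2,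
          (mul_eq_zero.1 h1).resolve_left h2, add_zero]) hM
      · exact h1
    · exact h0
  ext i j
  fin_cases i <;> fin_cases j <;> simp [b0, b1, b2, hx]

/-- **At an unramified prime `≡ -1` with non-zero trace no cocycle ramifies.** -/
theorem cocycle_inertia_eq_zero_of_neg_one (hp2 : p ≠ 2) {q : ℕ} (hq : q.Prime) (hqp : q ≠ p)
    (hq1 : (q : k) = -1) {A : ValuationSubring Ω} (hA : A.LiesOverPrime q)
    (hρ : GaloisFactorsThroughFiniteLevel (ρ : GQ →* _))
    (hI : ∀ σ ∈ A.inertiaSubgroupIn ℚ, ρ σ = 1) {φ : GQ} (hφ : A.IsFrobeniusAt φ q)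
    (htr : (ρ φ).trace ≠ 0) {c : GQ → Matrix (Fin 2) (Fin 2) k} (hc : IsAdCocycle ρ c)
    {τ : GQ} (hτ : τ ∈ A.inertiaSubgroupIn ℚ) : c τ = 0 := by
  let : Algebra (ZMod p) k := ZMod.algebra k p
  obtain ⟨hmul, htr0, L, hL, hlev⟩ := hc
  have hφD : φ ∈ A.decompositionSubgroup ℚ := hφ.mem_decompositionSubgroup
  let cA : A.decompositionSubgroup ℚ → traceZero k := fun g => ⟨c (g : GQ), htr0 _⟩
  have hcA : cA ∈ adCocyclesAt A ρ := ⟨fun g h => Subtype.ext (by
    simp [cA, hmul]), L, hL, fun g hg => Subtype.ext (hlev _ hg)⟩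
  have hc' := cocycle_of_mem (p := p) hcA
  let φD : A.decompositionSubgroup ℚ := ⟨φ, hφD⟩
  let τD : A.decompositionSubgroup ℚ := ⟨τ, MultRed.inertia_mem_decomposition hτ⟩
  obtain ⟨h, -⟩ := cocycle_frobenius_relation hq (Ne.symm hqp) hA hc' (isFiniteLevel_of_mem hρ hcA)
    (fun g hg => adAt_pow_of_unramified (hI _ hg)) (φ := φD) (τ := τD) hφ hτ
  have h1 : adAt p ρ A τD = 1 := adAt_eq_one_of_rho_eq_one (hI _ hτ)
  rw [cocycle_pow_of_trivial hc' h1, mul_assoc, hc', hc', h1, Module.End.one_apply, map_add] at h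
  have h2 : cA φD + adAt p ρ A φD (cA φD⁻¹) = 0 := by
    rw [← hc', mul_inv_cancel, cocycle_one hc']
  have h3 : adAt p ρ A φD (cA τD) = (q : ZMod p) • cA τD := by
    rw [← h, ← sub_eq_zero]
    have h2' : cA φD = -adAt p ρ A φD (cA φD⁻¹) := eq_neg_of_add_eq_zero_left h2
    rw [h2']
    abel
  have h4 : ρ φ * c τ * ρ φ⁻¹ = -c τ := by
    have h5 := congrArg (fun Y : traceZero k => (Y : Matrix (Fin 2) (Fin 2) k)) h3
    rw [Nat.cast_smul_eq_nsmul] at h5
    simp only [Submodule.coe_smul_of_tower] at h5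
    rw [← Nat.cast_smul_eq_nsmul k, hq1, neg_one_smul] at h5
    simpa [cA, φD, τD] using h5
  have hk2 : (2 : k) ≠ 0 := fun h0 => by
    have h' : ((2 : ℕ) : k) = 0 := by simpa using h0
    exact hp2 ((Nat.prime_dvd_prime_iff_eq Fact.out Nat.prime_two).mp
      ((CharP.cast_eq_zero_iff k p 2).mp h'))
  refine eq_zero_of_anticommute hk2 htr (htr0 τ) ?_
  · have h6 := congrArg (· * ρ φ) h4
    simpa only [mul_assoc, rho_inv_mul, mul_one, Matrix.neg_mul] using h6

/-- Allowing ramification at such a prime adds no tangent vectors. -/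
theorem IsTangentPair.erase_aux (hp2 : p ≠ 2)
    (hρ : GaloisFactorsThroughFiniteLevel (ρ : GQ →* _)) {Smin Sigma T : Finset ℕ}
    {C : LocalChoices T} {atP : CondAtP ρ p} {x : TangentPair k T} (U : Finset ℕ)
    (hU : ∀ R ∈ U, R ≠ p ∧ (R : k) = -1 ∧
      (∀ A : ValuationSubring Ω, A.LiesOverPrime R → ∀ σ ∈ A.inertiaSubgroupIn ℚ, ρ σ = 1) ∧
      ∀ A : ValuationSubring Ω, A.LiesOverPrime R → ∀ φ : GQ, A.IsFrobeniusAt φ R →
        (ρ φ).trace ≠ 0)
    (hx : IsTangentPair ρ Smin (Sigma ∪ U) T C atP x) : IsTangentPair ρ Smin Sigma T C atP x := by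
  obtain ⟨hc, hun, h3, h4, h5⟩ := hx
  refine ⟨hc, fun q hq hqS A hA σ hσ => ?_, h3, h4, h5⟩
  by_cases hqU : q ∈ U
  · obtain ⟨hqp, hq1, hI, htr⟩ := hU q hqU
    obtain ⟨φ, hφ⟩ := Frobenius.exists_isFrobeniusAt_qbar hq hA
    exact cocycle_inertia_eq_zero_of_neg_one hp2 hq hqp hq1 hA hρ (hI A hA) hφ (htr A hA φ hφ)
      hc hσ
  · exact hun q hq (by simp [hqS, hqU]) A hA σ hσ

/-- An element of determinant `-1` with non-zero trace, for `p = 3`. -/
theorem exists_det_neg_one_trace_ne (hp : p = 3) {χ : GQ → k} (hχ : IsCyclotomicModP p χ)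
    (hdet : ∀ σ, (ρ σ).det = χ σ) (habs : Engine.TW.IndexTwoIrreducible ρ) :
    ∃ σ : GQ, (ρ σ).det = -1 ∧ (ρ σ).trace ≠ 0 := by
  classical
  subst hp
  have hdet1 : ∀ a : GQ, cycloChar 3 a = 1 → (ρ a).det = 1 := fun a ha => by
    rw [hdet, chi_eq hχ, ha]
    simp
  have hdetm : ∀ a : GQ, cycloChar 3 a = -1 → (ρ a).det = -1 := fun a ha => by
    rw [hdet, chi_eq hχ, ha]
    show (((2 : ℕ) : k)) = -1
    have h3 : ((3 : ℕ) : k) = 0 := CharP.cast_eq_zero k 3
    push_cast at h3 ⊢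
    linear_combination h3
  obtain ⟨g, hg⟩ := exists_cycloChar_eq (p := 3) (-1)
  by_contra! hall
  let G : Subgroup GQ := (cycloChar 3).ker
  have hidx : G.index = 2 := by
    rw [Subgroup.index_ker, show ((cycloChar 3 : GQ →* _).range : Subgroup (ZMod 3)ˣ) = ⊤ from
      MonoidHom.range_eq_top.2 fun a => exists_cycloChar_eq a, Subgroup.card_top,
      Nat.card_eq_fintype_card, ZMod.card_units]
  let K := AlgebraicClosure k
  let R : G →* Matrix (Fin 2) (Fin 2) K :=
    ((algebraMap k K).mapMatrix.toMonoidHom.comp ρ).comp G.subtype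
  have htop := lift_range_eq_top_of_irreducible R fun V hV => habs K G (Or.inr hidx) V
    fun σ hσ x hx => hV ⟨σ, hσ⟩ x hx
  let F : Matrix (Fin 2) (Fin 2) K →ₗ[K] K :=
    (Matrix.traceLinearMap (Fin 2) K K).comp (LinearMap.mulLeft K ((ρ g).map (algebraMap k K)))
  have hFR : ∀ h : G, F (R h) = 0 := fun h => by
    have h0 : cycloChar 3 (g * (h : GQ)) = -1 := by
      rw [map_mul, hg, show cycloChar 3 (h : GQ) = 1 from MonoidHom.mem_ker.1 h.2, mul_one]
    have h1 := congrArg (algebraMap k K) (hall _ (hdetm _ h0))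
    rw [map_zero, map_mul] at h1
    rw [← h1]
    show ((ρ g).map (algebraMap k K) * (ρ (h : GQ)).map (algebraMap k K)).trace = _
    rw [← Matrix.map_mul]
    exact (AddMonoidHom.map_trace (algebraMap k K).toAddMonoidHom _).symm
  have hF0 : ∀ M, F M = 0 := fun M => by
    obtain ⟨P, rfl⟩ : M ∈ (MonoidAlgebra.lift K (Matrix (Fin 2) (Fin 2) K) G R).range :=
      htop ▸ Algebra.mem_top
    induction P using MonoidAlgebra.induction_on with
    | of h => exact (congrArg F (MonoidAlgebra.lift_of R h)).trans (hFR h)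
    | add a b ha hb =>
      show F (MonoidAlgebra.lift K _ G R (a + b)) = 0
      rw [map_add, map_add, show F (MonoidAlgebra.lift K _ G R a) = 0 from ha,
        show F (MonoidAlgebra.lift K _ G R b) = 0 from hb, add_zero]
    | smul c a ha =>
      show F (MonoidAlgebra.lift K _ G R (c • a)) = 0
      rw [map_smul, map_smul, show F (MonoidAlgebra.lift K _ G R a) = 0 from ha, smul_zero]
  have hg0 : (ρ g).map (algebraMap k K) = 0 := by
    ext i j
    have h1 := hF0 (Matrix.single j i 1)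
    fin_cases i <;> fin_cases j <;>
      simpa [F, Matrix.trace_fin_two, Matrix.mul_apply, Fin.sum_univ_two, Matrix.single] using h1
  have h1 := hdetm g hg
  rw [show ρ g = 0 from Matrix.map_injective (algebraMap k K).injective
    (hg0.trans (Matrix.map_zero _ (map_zero _)).symm), Matrix.det_zero] at h1
  exact one_ne_zero (neg_eq_zero.1 h1.symm)

/-- **The auxiliary prime.** -/
theorem exists_auxPrime_three (hp : p = 3) {χ : GQ → k} (hχ : IsCyclotomicModP p χ)
    (hfin : GaloisFactorsThroughFiniteLevel (ρ : GQ →* _))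
    (hdet : ∀ σ, (ρ σ).det = χ σ) (habs : Engine.TW.IndexTwoIrreducible ρ) (S : Finset ℕ)
    (hunr : ∀ q : ℕ, q.Prime → q ∉ S → q ≠ p → ∀ A : ValuationSubring Ω, A.LiesOverPrime q →
      ∀ σ ∈ A.inertiaSubgroupIn ℚ, ρ σ = 1) (a : ℕ → k)
    (htrace : ∀ q : ℕ, q.Prime → q ∉ S → q ≠ p → ∀ A : ValuationSubring Ω, A.LiesOverPrime q →
      ∀ φ : GQ, A.IsFrobeniusAt φ q → (ρ φ).trace = a q) :
    ∃ R : ℕ, R.Prime ∧ R ∉ S ∧ R % 3 = 2 ∧ R ≠ p ∧ (R : k) = -1 ∧
      (∀ A : ValuationSubring Ω, A.LiesOverPrime R → ∀ σ ∈ A.inertiaSubgroupIn ℚ, ρ σ = 1) ∧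
      ∀ A : ValuationSubring Ω, A.LiesOverPrime R → ∀ φ : GQ, A.IsFrobeniusAt φ R →
        (ρ φ).trace ≠ 0 := by
  obtain ⟨g, hg, hgt⟩ := exists_det_neg_one_trace_ne hp hχ hdet habs
  obtain ⟨L, hL, hρL⟩ := hfin
  obtain ⟨R, hR, hRS, A, hA, σ, hσ, heq⟩ :=
    Chebotarev.exists_isFrobeniusAt_eqOn L g (insert p S)
  rw [Finset.mem_insert, not_or] at hRS
  have hσg : ρ σ = ρ g := by
    have h1 : ρ (g⁻¹ * σ) = 1 := hρL _ fun x hx => by
      rw [AlgEquiv.mul_apply, heq x hx]
      exact g.symm_apply_apply x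
    rw [← mul_inv_cancel_left g σ, map_mul, h1, mul_one]
  have hRk : (R : k) = -1 := by
    rw [← hg, ← hσg, hdet]
    refine (hχ σ R fun μ hμ => ?_).symm
    exact GalCoh.Descent.frobenius_root_of_unity hR hA
      (fun hd => hRS.1 ((Nat.prime_dvd_prime_iff_eq hR Fact.out).1 hd)) hσ hμ
  refine ⟨R, hR, hRS.2, ?_, hRS.1, hRk, hunr R hR hRS.2 hRS.1, fun B hB φ hφ => ?_⟩
  · subst hp
    have h1 : ((R : ℕ) : k) = ((2 : ℕ) : k) := by
      rw [hRk]
      have h3 : ((3 : ℕ) : k) = 0 := CharP.cast_eq_zero k 3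
      push_cast at h3 ⊢
      linear_combination -h3
    rw [CharP.natCast_eq_natCast k 3] at h1
    exact h1
  · rw [htrace R hR hRS.2 hRS.1 B hB φ hφ, ← htrace R hR hRS.2 hRS.1 A hA σ hσ, hσg]
    exact hgt

end Fermat.Agent.General

end
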