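import Fermat.Agent.Engine.Top.FlatShape
import Fermat.Agent.Engine.Top.Place

/-!
# The place at `p` and the auxiliary kernel, for every odd `p`
-/

noncomputable section

open IsLocalRing Fermat.Agent.DefRing Fermat.Agent.Deform Fermat.Agent.FlatJ0 Fermat.Agent.Engine
  Fermat.Agent.Engine.Top
open scoped WeierstrassCurve.Affine

namespace Fermat.Agent.General.Top

local notation "Qbar" => AlgebraicClosure ℚ

variable {p : ℕ} [Fact p.Prime]

/-- An auxiliary kernel: Fontaine's bound, and the cyclotomic character trivial modulo `p`. -/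
theorem exists_cycloKernel_odd (hp : p ≠ 2) {A : ValuationSubring Qbar} (hA : A.LiesOverPrime p) :
    ∃ (N : Subgroup GQ) (ρ : GQ →* Matrix (Fin 2) (Fin 2) (ZMod p)),
      IsBoundKernel A p N ρ ∧
      ∀ σ ∈ N, PadicInt.toZModPow 1 (EigenRep.epsilonPadic p σ : ℤ_[p]) = 1 := by
  let E : WeierstrassCurve ℤ := ⟨0, 0, 0, 1, 0⟩
  have hΔ : E.Δ = -64 := by
    simp only [E, WeierstrassCurve.Δ, WeierstrassCurve.b₂, WeierstrassCurve.b₄,
      WeierstrassCurve.b₆, WeierstrassCurve.b₈]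
    norm_num
  have hΔ0 : E.Δ ≠ 0 := by rw [hΔ]; norm_num
  have hgood : E.IsGoodPrimeFor p := fun h => by
    rw [hΔ, dvd_neg] at h
    have h' : p ∣ 64 := by exact_mod_cast h
    have h2 : p ∣ 2 := (Fact.out : p.Prime).dvd_of_dvd_pow (show p ∣ 2 ^ 6 from h')
    exact hp ((Nat.prime_dvd_prime_iff_eq (Fact.out : p.Prime) Nat.prime_two).1 h2)
  have : (E.map (Int.castRingHom ℚ)).IsElliptic := BigImage.isElliptic_of_Δ_ne_zero hΔ0
  have hcard : Nat.card (Submodule.torsionBy ℤ ((E.map (Int.castRingHom ℚ))⁄Qbar).Point p) = p ^ 2 :=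
    EllTorsion.natCard_torsionBy_baseChange (E.map (Int.castRingHom ℚ)) Qbar p
      (Nat.cast_ne_zero.2 (Fact.out : p.Prime).ne_zero)
  have hker := EllTorsion.galoisFactorsThroughFiniteLevel_galoisRepModuleEnd
    (E.map (Int.castRingHom ℚ)) (Fact.out : p.Prime).ne_zero
  let ρ₀ := (E.map (Int.castRingHom ℚ)).residualGaloisRepOf p hcard hker
  let b : Module.Basis (Fin 2) (ZMod p) ρ₀.V := Module.finBasisOfFinrankEq _ _ ρ₀.finrank_eq
  let ρ : GQ →* Matrix (Fin 2) (Fin 2) (ZMod p) :=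
    (LinearMap.toMatrixAlgEquiv b).toRingEquiv.toRingHom.toMonoidHom.comp ρ₀.ρ
  have hρ := isTorsionMatrix_of_basis b (RingHom.id (ZMod p)) ρ fun σ => rfl
  refine ⟨_, ρ, isBoundKernel_torsionKer hA hp hgood hρ, fun σ hσ => ?_⟩
  have h1 : ρ₀.ρ σ = 1 := LinearMap.ext fun x => Subtype.ext (hσ.2 _ (by
    rw [← natCast_zsmul]
    exact (Submodule.mem_torsionBy_iff _ _).1 x.2))
  obtain ⟨a, ha⟩ := Deform.exists_exponent_level (Fact.out : p.Prime) σ 1
  have hd := (BigImage.residual_detIsCyclotomic (E := E.map (Int.castRingHom ℚ)) (p := p)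
    (hcard := hcard) (hker := hker)).2 1 σ a ha
  rw [pow_one, ZMod.natCast_self, Ideal.span_singleton_eq_bot.2 rfl, Ideal.mem_bot,
    sub_eq_zero] at hd
  change LinearMap.det (ρ₀.ρ σ) = (a : ZMod p) at hd
  rw [h1, map_one] at hd
  obtain ⟨ζ, hζ⟩ := EigenRep.exists_primitiveRoot (p := p) 1
  rw [EigenRep.toZModPow_epsilon_eq hζ (ha ζ hζ.pow_eq_one)]
  exact (show ∀ m, m = p → ((a : ℕ) : ZMod m) = 1 from fun m hm => by subst hm; exact hd.symm) _
    (pow_one p)

/-- A place choice exists at every odd prime. -/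
theorem exists_placeChoice_odd (C : Coeff p) (hp : p ≠ 2) : Nonempty (PlaceChoice C) := by
  have hpp : p.Prime := Fact.out
  have hp3 : 3 ≤ p := by
    have := hpp.two_le
    omega
  have : NeZero (p : Qbar) := ⟨Nat.cast_ne_zero.2 hpp.ne_zero⟩
  obtain ⟨P, hP⟩ := Frobenius.exists_liesOverPrime Qbar hpp
  obtain ⟨ζ, hζ⟩ := HasEnoughRootsOfUnity.exists_primitiveRoot Qbar p
  obtain ⟨σ₀, hσ₀, hmov⟩ := LocalRingP.exists_inertia_moves (by omega) hP hζ
  obtain ⟨φ, hφ⟩ := Frobenius.exists_isFrobeniusAt_qbar hpp hP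
  obtain ⟨s, hs⟩ := exists_kummerElement p (by omega) P hP
  refine ⟨⟨P, hP, σ₀, hσ₀, ?_, φ, hφ, s, hs⟩⟩
  by_contra hu
  have h0 : residue C.O (C.cyclo σ₀) = 1 := by
    rw [← sub_eq_zero, ← map_one (residue C.O), ← map_sub]
    exact (residue_eq_zero_iff _).2 hu
  obtain ⟨a, ha⟩ := Deform.exists_exponent_level hpp σ₀ 1
  have h1 := C.residue_cyclo σ₀ a fun μ hμ => ha μ (by rwa [pow_one])
  dsimp only at h1
  rw [h0] at h1
  have h2 : a % p = 1 := by
    have h3 : ((a : ℕ) : ResidueField C.O) = ((1 : ℕ) : ResidueField C.O) := by rw [Nat.cast_one, h1]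
    rw [CharP.natCast_eq_natCast (ResidueField C.O) p] at h3
    rw [h3]
    exact Nat.mod_eq_of_lt hpp.one_lt
  refine hmov ?_
  rw [ha ζ (by rw [pow_one]; exact hζ.pow_eq_one), ← Nat.mod_add_div a p, h2, pow_add, pow_one,
    pow_mul, hζ.pow_eq_one, one_pow, mul_one]

end Fermat.Agent.General.Top
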