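import Fermat.Agent.General.IndexTwo
import Fermat.Agent.Engine.Top.Residual

/-!
# The residual hypotheses at every odd prime for a semistable curve
-/

noncomputable section

open IsLocalRing Fermat.Agent.DefRing Fermat.Agent.Engine Fermat.Agent.Engine.Top

namespace Fermat.Agent.General

variable {W : WeierstrassCurve ℤ} {p : ℕ} [Fact p.Prime]

/-- Semistable, `p` odd, `W[p]` irreducible. -/
theorem oddResidual_of_semistable (hp2 : p ≠ 2) (hΔ0 : W.Δ ≠ 0) (hss : W.IsSemistableModel)
    (hirr : W.ModRepIsIrreducible p) : OddResidual W p where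
  ne_two := hp2
  delta_ne_zero := hΔ0
  semistable := hss
  irreducible := hirr
  indexTwo := indexTwoIrreducible_of_semistable hΔ0 hss hp2 hirr

end Fermat.Agent.General
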