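import Fermat.Agent.General.Cases
import Fermat.Agent.General.Top.OddResidual
import Fermat.Agent.Engine.Top.Setup
import Fermat.Agent.Engine.TRep.ThreeOK

/-!
# The auxiliary primes: residual form, levels and framed primes

The framed primes avoid the auxiliary ones and cover, with them and `Smin`, the bad primes.
-/

noncomputable section

open IsLocalRing Fermat.Agent.DefRing Fermat.Agent.Deform Fermat.Agent.Engine Fermat.Agent.Engine.Top

namespace Fermat.Agent.General

local notation "Qbar" => AlgebraicClosure ℚ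

variable {W : WeierstrassCurve ℤ} {p : ℕ} [Fact p.Prime]

/-- Auxiliary primes in the residual form the auxiliary levels use. -/
theorem AuxSet.residual {U : Finset ℕ} (hU : AuxSet W p U) {C : Coeff p}
    (R : ResidualData W C) : ∀ r ∈ U, r ≠ p ∧ (r : ResidueField C.O) = -1 ∧
      (∀ A : ValuationSubring Qbar, A.LiesOverPrime r →
        ∀ σ ∈ A.inertiaSubgroupIn ℚ, R.D.rbar σ = 1) ∧
      ∀ A : ValuationSubring Qbar, A.LiesOverPrime r → ∀ φ : GQ, A.IsFrobeniusAt φ r →
        (R.D.rbar φ).trace ≠ 0 := by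
  intro r hr
  have hrp : r ≠ p := fun he => by
    have h1 := hU.neg_one r hr
    rw [he] at h1
    exact (Fact.out : p.Prime).not_dvd_one ((Nat.dvd_add_right dvd_rfl).1 h1)
  refine ⟨hrp, ?_, fun A hA σ hσ => R.rbar_inertia_good (hU.prime r hr) hrp (hU.good r hr) hA hσ,
    fun A hA φ hφ h0 => hU.trace r hr ?_⟩
  · have h1 := (CharP.cast_eq_zero_iff (ResidueField C.O) p (r + 1)).2 (hU.neg_one r hr)
    push_cast at h1
    linear_combination h1
  · rw [R.trace_frob (hU.prime r hr) hrp (hU.good r hr) hA hφ] at h0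
    exact (CharP.intCast_eq_zero_iff (ResidueField C.O) p _).1 h0

/-- `ThreeOK` at any multiple of the auxiliary primes. -/
theorem AuxSet.threeOK {U : Finset ℕ} (hU : AuxSet W p U) {M : ℕ} (hd : ∀ r ∈ U, r ∣ M) :
    HeckeModule.ThreeOK p M := by
  by_cases hp : p = 3
  · obtain ⟨r, hr⟩ := hU.three hp
    refine Or.inr ⟨r, hU.prime r hr, hd r hr, ?_⟩
    obtain ⟨c, hc⟩ := hU.neg_one r hr
    subst hp
    omega
  · exact Or.inl hp

/-- The framed primes, avoiding the auxiliary ones. -/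
theorem exists_framedSet_avoid (h : OddResidual W p) {U : Finset ℕ} (hU : AuxSet W p U) :
    ∃ T : Finset ℕ, T.Nonempty ∧ (∀ q ∈ T, q.Prime ∧ q ≠ p ∧ q ∉ Smin W p) ∧ Disjoint T U ∧
    ∀ q : ℕ, q.Prime → (q : ℤ) ∣ W.Δ → q ≠ p → q ∈ Smin W p ∪ (T ∪ U) := by
  classical
  obtain ⟨ℓ, hle, hℓ⟩ := Nat.exists_infinite_primes (W.Δ.natAbs + p + U.sup id + 1)
  have hℓS : ℓ ∉ Smin W p := fun hm => by
    have := Nat.le_of_dvd (Int.natAbs_pos.2 h.delta_ne_zero) (Int.natCast_dvd.1 (mem_Smin.1 hm).2.1)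
    omega
  refine ⟨insert ℓ ((W.Δ.natAbs.primeFactors.erase p) \ Smin W p), Finset.insert_nonempty _ _,
    fun q hq => ?_, Finset.disjoint_left.2 fun q hq hqU => ?_, fun q hq hd hqp => ?_⟩
  · rcases Finset.mem_insert.1 hq with rfl | hq
    · exact ⟨hℓ, by omega, hℓS⟩
    · rw [Finset.mem_sdiff, Finset.mem_erase, Nat.mem_primeFactors] at hq
      exact ⟨hq.1.2.1, hq.1.1, hq.2⟩
  · rcases Finset.mem_insert.1 hq with rfl | hq
    · have := Finset.le_sup (f := id) hqU
      simp only [id] at this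
      omega
    · rw [Finset.mem_sdiff, Finset.mem_erase, Nat.mem_primeFactors] at hq
      exact hU.good q hqU (Int.natCast_dvd.2 hq.1.2.2.1)
  · rw [Finset.mem_union, Finset.mem_union, Finset.mem_insert, Finset.mem_sdiff, Finset.mem_erase,
      Nat.mem_primeFactors]
    by_cases hS : q ∈ Smin W p
    · exact Or.inl hS
    · exact Or.inr (Or.inl (Or.inr ⟨⟨hqp, hq, Int.natCast_dvd.1 hd,
        Int.natAbs_ne_zero.2 h.delta_ne_zero⟩, hS⟩))

omit [Fact p.Prime] in
/-- A prime allowed at a base level is allowed with the framed primes added. -/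
theorem mem_union_framed {S T U : Finset ℕ} {q : ℕ} (h : q ∈ S ∪ U ∪ {p}) :
    q ∈ S ∪ (T ∪ U) ∪ {p} := by
  simp only [Finset.mem_union] at h ⊢
  exact h.imp (Or.imp id Or.inr) id

end Fermat.Agent.General

end
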