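import Fermat.Agent.General.Top.Setting
import Fermat.Agent.Engine.Top.LiftCases

/-!
# From a kernel inclusion to modularity at a squarefree level, at any odd `p`

Any condition at `p`; the base level may contain further primes `U`.
-/

noncomputable section

open IsLocalRing Matrix Fermat.Agent.DefRing Fermat.Agent.Deform
open scoped Classical

namespace Fermat.Agent.Engine.Top

open HeckeModule TRep Lifting

local notation "Qbar" => AlgebraicClosure ℚ

variable {W : WeierstrassCurve ℤ} {p : ℕ} [Fact p.Prime]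

variable {C : Coeff p}

/-- The trace of Frobenius at a point giving the curve. -/
theorem ResidualData.IsCurveLift.trace_frob_point {R : ResidualData W C} {L₀ : LevelData C.O}
    {PB : L₀.RepRing} {x : PB.R →ₐ[C.O] C.O}
    (hlift : R.IsCurveLift (mapRep (x : PB.R →+* C.O) PB.rep))
    {ℓ : ℕ} (hℓ : ℓ.Prime) (hℓp : ℓ ≠ p) (hgood : W.IsGoodPrimeFor ℓ) {A : ValuationSubring Qbar}
    (hA : A.LiesOverPrime ℓ) {σ : GQ} (hσ : A.IsFrobeniusAt σ ℓ) :
    x (PB.rep σ).trace = apLam W C.O ℓ := by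
  have h := hlift.trace_frob ℓ hℓ hℓp hgood A hA σ hσ
  rwa [trace_mapRep] at h

/-- The trace of tame inertia at a point giving the curve. -/
theorem ResidualData.IsCurveLift.trace_tame_point {R : ResidualData W C} {L₀ : LevelData C.O}
    {PB : L₀.RepRing} {x : PB.R →ₐ[C.O] C.O}
    (hlift : R.IsCurveLift (mapRep (x : PB.R →+* C.O) PB.rep))
    {q : ℕ} (hq : q.Prime) (hqp : q ≠ p) {A : ValuationSubring Qbar}
    (hA : A.LiesOverPrime q) {σ : GQ} (hσ : σ ∈ A.inertiaSubgroupIn ℚ) :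
    x (PB.rep σ).trace = 2 := by
  have h := (hlift.unipotent q hq hqp A hA σ hσ).1
  rwa [trace_mapRep] at h

variable {R : ResidualData W C} {P : ValuationSubring Qbar}
  {cl : Closed C.O (P.decompositionSubgroup ℚ × Fin 2 × Fin 2)}

/-- **Modularity from a kernel inclusion**, any condition at `p`. -/
theorem isModularModelOfLevel_of_ker_le_gen {S : Finset ℕ} {PB : (R.levelData S P cl).RepRing}
    {x : PB.R →ₐ[C.O] C.O} (hlift : R.IsCurveLift (mapRep (x : PB.R →+* C.O) PB.rep))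
    (h : OddResidual W p)
    (hbad : ∀ q : ℕ, q.Prime → (q : ℤ) ∣ W.Δ → q ≠ p → q ∈ Smin W p ∪ S) {N : ℕ} [NeZero N]
    (H : BaseSetting p C.ι₀ N (apLam W C.O) (R.levelData S P cl)) {d : ℕ}
    (act : PB.R →+* Matrix (Fin d) (Fin d) C.O)
    (hconst : ∀ o : C.O, act (algebraMap C.O PB.R o) = o • 1)
    (b : Module.Basis (Fin d) C.O (BaseClasses (O := C.O) (residue_surjective (R := C.O))
      (R.levelData S P cl).Sigma (apLam W C.O) N))
    (hb : ∀ (ℓ : ℕ) (hℓ : ℓ.Prime), ℓ ∉ (R.levelData S P cl).Sigma → ∀ A : ValuationSubring Qbar,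
      A.LiesOverPrime ℓ → ∀ σ : GQ, A.IsFrobeniusAt σ ℓ → ∀ v,
        ⇑(b.repr ((MvPolynomial.X (⟨ℓ, hℓ⟩ : Nat.Primes) : HeckePoly C.O) • v)) =
          act (PB.rep σ).trace *ᵥ ⇑(b.repr v))
    (hker : RingHom.ker act ≤ RingHom.ker x) :
    W.IsModularModelOfLevel N := by
  classical
  let hsO : Function.Surjective (residue C.O ∘ algebraMap C.O C.O) := residue_surjective (R := C.O)
  have hex : ∀ ℓ : ℕ, ∃ A : ValuationSubring Qbar, ∃ σ : GQ,
      ℓ.Prime → A.LiesOverPrime ℓ ∧ A.IsFrobeniusAt σ ℓ := fun ℓ => by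
    by_cases hℓ : ℓ.Prime
    · obtain ⟨A, hA⟩ := Frobenius.exists_liesOverPrime Qbar hℓ
      obtain ⟨σ, hσ⟩ := Frobenius.exists_isFrobeniusAt_qbar hℓ hA
      exact ⟨A, σ, fun _ => ⟨hA, hσ⟩⟩
    · exact ⟨⊤, 1, fun h => absurd h hℓ⟩
  choose A Fr hFr using hex
  let Ψ : AwayPoly C.O (↑(R.levelData S P cl).Sigma : Set ℕ) →+* PB.R := MvPolynomial.eval₂Hom (algebraMap C.O PB.R)
    fun l => (PB.rep (Fr ((l : Nat.Primes) : ℕ))).trace
  have hΨ : ∀ Po v, ⇑(b.repr (awayIncl C.O (↑(R.levelData S P cl).Sigma : Set ℕ) Po • v)) = act (Ψ Po) *ᵥ ⇑(b.repr v) := by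
    intro Po
    induction Po using MvPolynomial.induction_on with
    | C o =>
      intro v
      rw [← MvPolynomial.algebraMap_eq, AlgHom.commutes, algebraMap_smul, map_smul,
        MvPolynomial.algebraMap_eq, MvPolynomial.eval₂Hom_C, hconst, Matrix.smul_mulVec,
        Matrix.one_mulVec]
      rfl
    | add Po Po' h h' =>
      intro v
      rw [map_add, add_smul, map_add, Finsupp.coe_add, h, h', map_add, map_add, Matrix.add_mulVec]
    | mul_X Po l h =>
      intro v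
      rw [map_mul, mul_smul, h, map_mul, map_mul, ← Matrix.mulVec_mulVec,
        MvPolynomial.eval₂Hom_X']
      refine congrArg _ ?_
      rw [← hb _ (l : Nat.Primes).2 l.2 _ (hFr _ (l : Nat.Primes).2).1 _ (hFr _ (l : Nat.Primes).2).2 v]
      simp [awayIncl]
  let K := FractionRing C.O
  let φ : AwayPoly C.O (↑(R.levelData S P cl).Sigma : Set ℕ) →+* K :=
    (algebraMap C.O K).comp ((x : PB.R →+* C.O).comp Ψ)
  have hφker : ∀ Po, (∀ v : BaseClasses hsO (R.levelData S P cl).Sigma (apLam W C.O) N,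
      awayIncl C.O (↑(R.levelData S P cl).Sigma : Set ℕ) Po • v = 0) → φ Po = 0 := fun Po hP => by
    have h0 : act (Ψ Po) = 0 := Matrix.toLin'.injective (LinearMap.ext fun c => by
      obtain ⟨v, rfl⟩ : ∃ v, ⇑(b.repr v) = c := ⟨b.equivFun.symm c, b.equivFun.apply_symm_apply c⟩
      rw [Matrix.toLin'_apply, ← hΨ, hP, map_zero, map_zero]
      rfl)
    show algebraMap C.O K (x (Ψ Po)) = 0
    rw [show x (Ψ Po) = 0 from hker h0, map_zero]
  have hexact : ExactHyp (awayMonoid (lamIdeal hsO (R.levelData S P cl).Sigma (apLam W C.O))) (1 : (ZMod N)ˣ →* C.O) := by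
    have := H.exactHyp (Λ := C.O) hsO (Finset.Subset.refl _) (fun _ => 1) ∅ N H.three (by simp)
    simpa [charSq] using this
  have : Module.Finite C.O (BaseClasses hsO (R.levelData S P cl).Sigma (apLam W C.O) N) :=
    finite_cohLoc _ _ (maximalIdeal_le_lamIdeal hsO (R.levelData S P cl).Sigma (apLam W C.O))
  have hgood : ∀ ℓ : ℕ, ℓ.Prime → ℓ ∉ (R.levelData S P cl).Sigma → W.IsGoodPrimeFor ℓ ∧ ℓ ≠ p := fun ℓ hℓ hℓS =>
    ResidualData.good_of_not_mem hbad hℓ hℓS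
  have hocc := occurs_of_cohChar (lamIdeal hsO (R.levelData S P cl).Sigma (apLam W C.O)) hexact φ hφker
    (lam := fun ℓ => algebraMap C.O K (apLam W C.O ℓ)) fun l => by
      show algebraMap C.O K (apLam W C.O _) = algebraMap C.O K (x (Ψ (MvPolynomial.X l)))
      rw [MvPolynomial.eval₂Hom_X', hlift.trace_frob_point (l : Nat.Primes).2
        (hgood _ (l : Nat.Primes).2 l.2).2 (hgood _ (l : Nat.Primes).2 l.2).1
        (hFr _ (l : Nat.Primes).2).1 (hFr _ (l : Nat.Primes).2).2]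
  rw [MonoidHom.comp_one] at hocc
  refine EigenSystems.isModularModelOfLevel_of_occurs h.delta_ne_zero hocc ?_ ∅ fun ℓ _ _ => by
    rw [apLam, map_intCast]
  obtain ⟨l, hl1, hl2, -, hlS, hne⟩ :=
    H.exists_nonEisenstein _ (Finset.Subset.refl _) (Nat.pos_of_ne_zero (NeZero.ne N))
  refine ⟨l, hl1, hlS, hl2, fun he => hne ?_⟩
  have he' : apLam W C.O l = (l : C.O) + 1 :=
    IsFractionRing.injective C.O K (by simpa using he)
  rw [he', map_add, map_natCast, map_one]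

variable {T U : Finset ℕ}

/-- **Modularity from the kernel inclusion at the ramified primes of the point.** -/
theorem exists_modular_of_ker_le {PB : (R.levelData (T ∪ U) P cl).RepRing} {x : PB.R →ₐ[C.O] C.O}
    (hlift : R.IsCurveLift (mapRep (x : PB.R →+* C.O) PB.rep)) (h : OddResidual W p)
    (hT : ∀ q ∈ T, q.Prime ∧ q ≠ p ∧ q ∉ Smin W p) (hTU : Disjoint T U)
    (hbad : ∀ q : ℕ, q.Prime → (q : ℤ) ∣ W.Δ → q ≠ p → q ∈ Smin W p ∪ (T ∪ U)) {N₀ : ℕ}
    (hthree : HeckeModule.ThreeOK p N₀)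
    (hN₀ : Squarefree N₀) (hN₀S : ∀ q : ℕ, q.Prime → q ∣ N₀ → q ∈ Smin W p ∪ U ∪ {p})
    {frob tame : T → GQ} {r : ℕ} {r₀ : T}
    {Φ₀ : T → Matrix (Fin 2) (Fin 2) C.O}
    {X : AuxLevels r r₀ frob tame Φ₀ (R.levelData (T ∪ U) P cl) PB}
    (B : LiftingLevels p (fun v : T => (v : ℕ)) X)
    (hexp : ∀ (L : Finset T) [NeZero (liftLevel N₀ (fun v : T => (v : ℕ)) L)],
      ∃ e : Module.Basis (Fin (B.rank L)) C.O (CohLoc
          (awayMonoid (lamIdeal (Λ := C.O) (residue_surjective (R := C.O))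
            (R.levelData (T ∪ U) P cl).Sigma (apLam W C.O)))
          (scalarRep (1 : (ZMod (liftLevel N₀ (fun v : T => (v : ℕ)) L))ˣ →* C.O) C.O)),
        ∀ ℓ : ℕ, ∀ hℓ : ℓ.Prime, ℓ ∉ (R.levelData (T ∪ U) P cl).Sigma → ∀ A : ValuationSubring Qbar,
          A.LiesOverPrime ℓ → ∀ σ : GQ, A.IsFrobeniusAt σ ℓ → ∀ y,
            (e.repr ((MvPolynomial.X ⟨ℓ, hℓ⟩ : HeckePoly C.O) • y) : Fin (B.rank L) → C.O) =
              Matrix.mulVec (B.act₀ L (PB.rep σ).trace) (e.repr y))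
    (hker : RingHom.ker (B.act₀
        (Finset.univ.filter fun v => ∃ i j, (x : PB.R →+* C.O) ((PB.rep (tame v) - 1) i j) ≠ 0)) ≤
      RingHom.ker (x : PB.R →+* C.O)) :
    ∃ N : ℕ, Squarefree N ∧ W.IsModularModelOfLevel N := by
  set L := Finset.univ.filter fun v => ∃ i j, (x : PB.R →+* C.O) ((PB.rep (tame v) - 1) i j) ≠ 0
    with hLdef
  set N := liftLevel N₀ (fun v : T => (v : ℕ)) L with hNdef
  have hnot : ∀ v : T, ¬ (v : ℕ) ∣ N₀ := fun v hd => by
    obtain ⟨hv, hvp, hvS⟩ := hT v v.2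
    have := hN₀S v hv hd
    simp only [Finset.mem_union, Finset.mem_singleton] at this
    exact this.elim (fun h' => h'.elim hvS (Finset.disjoint_left.1 hTU v.2)) hvp
  have hprime : ∀ v : T, (v : ℕ).Prime := fun v => (hT v v.2).1
  have hsq : Squarefree N :=
    squarefree_liftLevel (qv := fun v : T => (v : ℕ)) hN₀ hprime Subtype.val_injective hnot L
  have : NeZero N := ⟨hsq.ne_zero⟩
  have hNS : ∀ q : ℕ, q.Prime → q ∣ N → q ∈ Smin W p ∪ (T ∪ U) ∪ {p} := fun q hq hd => by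
    rcases (dvd_liftLevel_iff hprime hq).1 hd with hd | ⟨v, -, rfl⟩
    · have := hN₀S q hq hd
      simp only [Finset.mem_union] at this ⊢
      exact this.imp (Or.imp id Or.inr) id
    · exact Finset.mem_union_left _ (Finset.mem_union_right _ (Finset.mem_union_left _ v.2))
  refine ⟨N, hsq, ?_⟩
  obtain ⟨e, he⟩ := hexp L
  refine isModularModelOfLevel_of_ker_le_gen hlift h hbad
    (R.baseSetting_odd h hbad (hthree.of_dvd (Dvd.intro _ rfl)) hsq hNS P _)
    (B.act₀ L) (fun o => ?_) e (fun ℓ hℓ hℓS A hA σ hσ v => he ℓ hℓ hℓS A hA σ hσ v) hker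
  rw [← (X.toBase 0).commutes, ← B.act_base, B.act_const]
  ext i j
  simp only [Matrix.map_apply, Matrix.smul_apply, Matrix.one_apply, smul_eq_mul]
  split_ifs <;> simp [twAug, twConst]

/-- **Lifting without a further generator**, `p` odd. -/
theorem exists_modular_of_aux {PB : (R.levelData (T ∪ U) P cl).RepRing} {x : PB.R →ₐ[C.O] C.O}
    (hlift : R.IsCurveLift (mapRep (x : PB.R →+* C.O) PB.rep)) (h : OddResidual W p)
    (hT : ∀ q ∈ T, q.Prime ∧ q ≠ p ∧ q ∉ Smin W p) (hTU : Disjoint T U)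
    (hbad : ∀ q : ℕ, q.Prime → (q : ℤ) ∣ W.Δ → q ≠ p → q ∈ Smin W p ∪ (T ∪ U)) {N₀ : ℕ}
    (hthree : HeckeModule.ThreeOK p N₀)
    (hN₀ : Squarefree N₀) (hN₀S : ∀ q : ℕ, q.Prime → q ∣ N₀ → q ∈ Smin W p ∪ U ∪ {p})
    (hmod : W.IsResiduallyModularOfLevel p N₀)
    (hplace : TopPlaceHyp p C.ι₀ N₀ (apLam W C.O) (R.levelData (T ∪ U) P cl))
    {frob tame : T → GQ}
    (hF : FramedPrimes p (R.levelData (T ∪ U) P cl) (fun v : T => (v : ℕ)) frob tame) {r : ℕ} {r₀ : T}
    {Φ₀ : T → Matrix (Fin 2) (Fin 2) C.O}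
    (X : AuxLevels r r₀ frob tame Φ₀ (R.levelData (T ∪ U) P cl) PB) (hnE : X.nExtra = 0)
    {Q : ℕ → Fin r → ℕ} (hX : AuxPrimes p X Q) :
    ∃ N : ℕ, Squarefree N ∧ W.IsModularModelOfLevel N := by
  have : NeZero N₀ := ⟨hN₀.ne_zero⟩
  have : Fact ((p : C.O) ∈ maximalIdeal C.O) := ⟨C.p_mem⟩
  have H : LevelSetting p C.ι₀ N₀ (apLam W C.O) (fun v : T => (v : ℕ))
      (R.levelData (T ∪ U) P cl) frob tame :=
    R.levelSetting_odd h hT hTU hbad hthree hN₀ hN₀S hmod P _ hF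
  obtain ⟨α, ψ, hTW⟩ := H.toBaseSetting.exists_twData hX
  obtain ⟨B, hB, -⟩ := H.exists_liftingLevels hX hplace hTW
  refine exists_modular_of_ker_le hlift h hT hTU hbad hthree hN₀ hN₀S B (fun L _ => ?_) ?_
  · obtain ⟨e, -, he⟩ := hB L
    exact ⟨e, he⟩
  · convert B.ker_le hnE hF H.toBaseSetting.two (x : PB.R →+* C.O) fun v => ?_
    obtain ⟨A, hA, -, ht, -⟩ := hF.place v
    exact hlift.trace_tame_point (hT v v.2).1 (hT v v.2).2.1 hA ht

end Fermat.Agent.Engine.Top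

end
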