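import Fermat.Agent.General.Top.LiftMult
import Fermat.Agent.General.Top.AuxSet
import Fermat.Agent.General.Top.OddResidual
import Fermat.Agent.GalCoh.GW.Final
import Fermat.Agent.General.Top.PlaceOdd
import Fermat.Agent.General.Three.PlaceAux

/-!
# Lifting at an odd prime, multiplicative reduction
-/

noncomputable section

open IsLocalRing Fermat.Agent.DefRing Fermat.Agent.Deform Fermat.Agent.Engine Fermat.Agent.Engine.Top

namespace Fermat.Agent.General

variable {W : WeierstrassCurve ℤ} {p : ℕ} [Fact p.Prime]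

/-- **Case M.** -/
theorem liftingMult (hp2 : p ≠ 2) : LiftingMult p := by
  classical
  intro hR W U M hΔ hss hirr hgood hbase
  obtain ⟨hU, hlev, hUd, hsupp⟩ := hbase
  have h := oddResidual_of_semistable hp2 hΔ hss hirr
  have hpp : p.Prime := Fact.out
  obtain ⟨-, hsq, -, hmod⟩ := hlev
  obtain ⟨C⟩ := nonempty_coeff p
  obtain ⟨R⟩ := nonempty_residualData h C
  obtain ⟨Ch⟩ := Top.exists_placeChoice_odd C hp2
  obtain ⟨T, hTne, hT, hTU, hbad⟩ := exists_framedSet_avoid h hU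
  obtain ⟨L, Φ₀, hL, hΦ₀, hF₀⟩ :=
    R.exists_localChoices h T hT Ch.P (ordinaryClosed Ch.P C.cyclo)
  have hF : FramedPrimes p (R.ordLevel Ch (T ∪ U)) (fun v : T => (v : ℕ)) L.frob L.tame :=
    R.framedPrimes_levelData hF₀
  have hcase : ¬ W.IsGoodPrimeFor p ∨ ¬ (p : ℤ) ∣ W.apOfModel p := Or.inl hgood
  let PB := Classical.choice
    (LevelData.nonempty_repRing (R.isResidual_ordLevel Ch h hcase (T ∪ U)))
  obtain ⟨x, hx⟩ := R.exists_curvePoint Ch h hcase hbad PB
  obtain ⟨q₀, hq₀⟩ := hTne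
  let r₀ : T := ⟨q₀, hq₀⟩
  have hinv : GalCoh.Reciprocity p := (CFT.cftInputs p).reciprocity
  have hGW : GalCoh.GreenbergWilesLe p := GalCoh.greenbergWilesLe p
  have hU' := hU.residual R
  by_cases hs : R.D.rbar Ch.s = 1
  · obtain ⟨M', hM', hpM', hM'U, hM'S, hmod'⟩ : ∃ M' : ℕ, Squarefree M' ∧ ¬ p ∣ M' ∧
        (∀ r ∈ U, r ∣ M') ∧ (∀ q : ℕ, q.Prime → q ∣ M' → q ∈ Smin W p ∪ U) ∧
          W.IsResiduallyModularOfLevel p (p * M') := by
      have hS' : ∀ q : ℕ, q.Prime → q ∣ M → q ≠ p → q ∈ Smin W p ∪ U := fun q hq hd hqp =>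
        (Finset.mem_union.1 (hsupp q hq hd)).resolve_right (by simpa using hqp)
      by_cases hp : p ∣ M
      · obtain ⟨M', rfl⟩ := hp
        have hnd : ¬ p ∣ M' := fun h' =>
          Nat.squarefree_iff_prime_squarefree.1 hsq p hpp (mul_dvd_mul_left p h')
        refine ⟨M', hsq.squarefree_of_dvd (dvd_mul_left _ _), hnd, fun r hr => ?_,
          fun q hq hd => hS' q hq (hd.mul_left p) fun he => hnd (he ▸ hd), hmod⟩
        refine ((hU.prime r hr).dvd_mul.1 (hUd r hr)).resolve_left fun hrp => ?_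
        exact (hU' r hr).1 ((Nat.prime_dvd_prime_iff_eq (hU.prime r hr) hpp).1 hrp)
      · have : NeZero (p * M) := ⟨mul_ne_zero hpp.ne_zero hsq.ne_zero⟩
        exact ⟨M, hsq, hp, hUd, fun q hq hd => hS' q hq hd fun he => hp (he ▸ hd),
          isResiduallyModularOfLevel_of_dvd hΔ (dvd_mul_left M p) hmod⟩
    have hdef : Ch.defect R.D.rbar = 0 := R.defect_rbar_mult Ch h hgood
    obtain ⟨i, j, r, -, Q, X, hnE, hX, hext, l, hl⟩ :=
      R.exists_aux_unram_odd Ch hinv hGW h T hT L hL r₀ Φ₀ hΦ₀ U hU' PB hcase hdef hs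
    refine hx.exists_modular_of_auxUnram h hgood hT hTU hbad (hU.threeOK hM'U) hM' hpM' hM'S hmod'
      (fun s hs' => ?_) hF X hnE hX i j hext l hl
    have hnot : ∀ v : T, ¬ (v : ℕ) ∣ M' := fun v hd =>
      (Finset.mem_union.1 (hM'S v (hT v v.2).1 hd)).elim (hT v v.2).2.2
        (Finset.disjoint_left.1 hTU v.2)
    have hsqL : Squarefree (Lifting.liftLevel M' (fun v : T => (v : ℕ)) s) :=
      squarefree_liftLevel (qv := fun v : T => (v : ℕ)) hM' (fun v => (hT v v.2).1)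
        Subtype.val_injective hnot s
    obtain ⟨M'', hd'', -, ⟨-, -, -, hmod''⟩, -, hsupp''⟩ := hR W U _ hΔ hss hirr hU
      ⟨Nat.pos_of_ne_zero hsqL.ne_zero, hsqL, fun hg => absurd hg hgood, hs'⟩
      fun r hr => (hM'U r hr).mul_right _
    have : NeZero M' := ⟨hM'.ne_zero⟩
    refine isResiduallyModularOfLevel_of_dvd hΔ ?_ hmod''
    have hcop : M''.Coprime (∏ v ∈ s, v.1) := Nat.Coprime.prod_right fun v hv =>
      Nat.Coprime.symm <| (hT v v.2).1.coprime_iff_not_dvd.2 fun hd' => by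
        have h1 := hsupp'' v (hT v v.2).1 hd'
        simp only [Finset.mem_union, Finset.mem_singleton] at h1
        exact h1.elim (fun h2 => h2.elim (hT v v.2).2.2 (Finset.disjoint_left.1 hTU v.2))
          (hT v v.2).2.1
    exact hcop.dvd_of_dvd_mul_right hd''
  · obtain ⟨r, -, Q, X, hnE, hX⟩ :=
      R.exists_aux_ram_odd Ch hinv hGW h T hT L hL r₀ Φ₀ hΦ₀ U hU' PB hcase (R.defect_rbar_mult Ch h hgood) hs
    exact exists_modular_of_aux hx.lift h hT hTU hbad (hU.threeOK hUd) hsq hsupp hmod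
      (R.topPlaceHyp_odd Ch h hcase hbad (hU.threeOK hUd) hsq fun q hq hd =>
        mem_union_framed (hsupp q hq hd)) hF X hnE hX

end Fermat.Agent.General

end
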