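import Fermat.Agent.General.Top.Tail
import Fermat.Agent.Engine.Top.LiftMultUnram

/-!
# Lifting at a multiplicative place, any odd `p`, with the Kummer element in the residual kernel

One further generator: either the classes of level prime to `p` raise the level at `p`, or a power
of the defect kills all classes with `p` in the level.
-/

noncomputable section

open IsLocalRing Fermat.Agent.DefRing Fermat.Agent.Deform
open scoped Classical

namespace Fermat.Agent.Engine.Top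

open HeckeModule TRep Lifting

local notation "Qbar" => AlgebraicClosure ℚ

variable {W : WeierstrassCurve ℤ} {p : ℕ} [Fact p.Prime] {C : Coeff p} {R : ResidualData W C}
  {Ch : PlaceChoice C} {T U : Finset ℕ} {PB : (R.ordLevel Ch (T ∪ U)).RepRing}
  {x : PB.R →ₐ[C.O] C.O}

/-- **Lifting at a multiplicative place with one further generator**, `p` odd. -/
theorem IsCurvePoint.exists_modular_of_auxUnram (hx : IsCurvePoint R Ch PB x) (h : OddResidual W p)
    (hgood : ¬ W.IsGoodPrimeFor p)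
    (hT : ∀ q ∈ T, q.Prime ∧ q ≠ p ∧ q ∉ Smin W p) (hTU : Disjoint T U)
    (hbad : ∀ q : ℕ, q.Prime → (q : ℤ) ∣ W.Δ → q ≠ p → q ∈ Smin W p ∪ (T ∪ U)) {M' : ℕ}
    (hthree : HeckeModule.ThreeOK p M') (hM' : Squarefree M') (hpM' : ¬ p ∣ M')
    (hM'S : ∀ q : ℕ, q.Prime → q ∣ M' → q ∈ Smin W p ∪ U)
    (hmod : W.IsResiduallyModularOfLevel p (p * M'))
    (hlow : ∀ s : Finset T,
      W.IsResiduallyModularOfLevel p (liftLevel M' (fun v : T => (v : ℕ)) s) →
        W.IsResiduallyModularOfLevel p M')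
    {frob tame : T → GQ}
    (hF : FramedPrimes p (R.ordLevel Ch (T ∪ U)) (fun v : T => (v : ℕ)) frob tame) {r : ℕ} {r₀ : T}
    {Φ₀ : T → Matrix (Fin 2) (Fin 2) C.O}
    (X : AuxLevels r r₀ frob tame Φ₀ (R.ordLevel Ch (T ∪ U)) PB) (hnE : X.nExtra = 1)
    {Q : ℕ → Fin r → ℕ} (hX : AuxPrimes p X Q) (i j : Fin 2)
    (hext : ∀ n k, X.extra n k = ((X.P n).rep Ch.s - 1) i j)
    (l : Fin X.g) (hl : ∀ n, X.θ n (MvPowerSeries.X (Sum.inr (Sum.inr l))) =
      MvPowerSeries.C (Ch.defect (X.P n).rep + ((X.P n).rep Ch.s - 1) i j)) :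
    ∃ N : ℕ, Squarefree N ∧ W.IsModularModelOfLevel N := by
  have hpp : p.Prime := Fact.out
  have hcase : ¬ W.IsGoodPrimeFor p ∨ ¬ (p : ℤ) ∣ W.apOfModel p := Or.inl hgood
  have : NeZero M' := ⟨hM'.ne_zero⟩
  have hsq : Squarefree (p * M') :=
    Nat.squarefree_mul_iff.2 ⟨hpp.coprime_iff_not_dvd.2 hpM', hpp.squarefree, hM'⟩
  have : NeZero (p * M') := ⟨hsq.ne_zero⟩
  have : Fact ((p : C.O) ∈ maximalIdeal C.O) := ⟨C.p_mem⟩
  have hthree₁ : HeckeModule.ThreeOK p (p * M') := hthree.of_dvd (Dvd.intro_left _ rfl)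
  have hS₀ : ∀ q : ℕ, q.Prime → q ∣ M' → q ∈ Smin W p ∪ U ∪ {p} := fun q hq hd =>
    Finset.mem_union_left _ (hM'S q hq hd)
  have hS₀' : ∀ q : ℕ, q.Prime → q ∣ M' → q ∈ Smin W p ∪ (T ∪ U) ∪ {p} := fun q hq hd => by
    have := hM'S q hq hd
    simp only [Finset.mem_union] at this ⊢
    exact Or.inl (this.imp id Or.inr)
  have hS₁ : ∀ q : ℕ, q.Prime → q ∣ p * M' → q ∈ Smin W p ∪ U ∪ {p} := fun q hq hd => by
    rcases hq.dvd_mul.1 hd with hd | hd
    · exact Finset.mem_union_right _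
        (Finset.mem_singleton.2 ((Nat.prime_dvd_prime_iff_eq hq hpp).1 hd))
    · exact hS₀ q hq hd
  have H' : LevelSetting p C.ι₀ (p * M') (apLam W C.O) (fun v : T => (v : ℕ))
      (R.ordLevel Ch (T ∪ U)) frob tame :=
    R.levelSetting_odd h hT hTU hbad hthree₁ hsq hS₁ hmod Ch.P _ hF
  have hplace := R.topPlaceHyp_odd Ch h hcase hbad hthree hM' hS₀'
  have hplace' := R.topPlaceHyp_odd Ch h hcase hbad hthree₁ hsq fun q hq hd => by
    have := hS₁ q hq hd
    simp only [Finset.mem_union] at this ⊢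
    exact this.imp (Or.imp id Or.inr) id
  obtain ⟨α, ψ, hTW⟩ := H'.toBaseSetting.exists_twData hX
  obtain ⟨B', hB₀', hB'⟩ := H'.exists_liftingLevels hX hplace' hTW
  -- the coordinate
  set w : ∀ n, (X.P n).R := fun n =>
    Ch.defect (X.P n).rep + ((X.P n).rep Ch.s - 1) i j with hw
  have hwz : ∀ n, w n - X.extra n ⟨0, hnE ▸ one_pos⟩ = Ch.defect (X.P n).rep := fun n => by
    simp only [hw, hext]
    ring
  have hz0 : ∀ n, X.extra n ⟨0, hnE ▸ one_pos⟩ *
      (X.extra n ⟨0, hnE ▸ one_pos⟩ - w n) = 0 := fun n => by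
    simp only [hw, hext]
    exact R.quad_rep Ch (X.P n) i j
  have hxe : ∀ n, (x : PB.R →+* C.O) (X.toBase n (w n - X.extra n ⟨0, hnE ▸ one_pos⟩)) = 0 :=
    fun n => by
      have hrep : mapRep (X.toBase n : (X.P n).R →+* PB.R) (X.P n).rep = PB.rep :=
        MonoidHom.ext fun σ => X.toBase_rep n σ
      rw [hwz, Ch.map_defect, hrep]
      exact hx.defect_eq_zero hgood
  have hxt : ∀ v : T, (x : PB.R →+* C.O) (PB.rep (tame v)).trace = 2 := fun v => by
    obtain ⟨A, hA, -, ht, -⟩ := hF.place v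
    exact hx.trace_tame (hT v v.2).1 (hT v v.2).2.1 hA ht
  have hinert : ∀ σ ∈ Ch.P.inertiaSubgroupIn ℚ,
      (R.D.rbar σ).trace = 1 + (R.D.rbar σ).det := fun σ hσ => R.inertia_trace_rbar_odd Ch h hcase hσ
  refine exists_modular_of_ker_le hx.lift h hT hTU hbad hthree₁ hsq hS₁ B' (fun L _ => ?_) ?_
  · obtain ⟨e, -, he⟩ := hB₀' L
    exact ⟨e, he⟩
  by_cases hmod₀ : W.IsResiduallyModularOfLevel p M'
  · have H : LevelSetting p C.ι₀ M' (apLam W C.O) (fun v : T => (v : ℕ)) (R.ordLevel Ch (T ∪ U))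
        frob tame := R.levelSetting_odd h hT hTU hbad hthree hM' hS₀ hmod₀ Ch.P _ hF
    obtain ⟨B, -, hB⟩ := H.exists_liftingLevels hX hplace hTW
    obtain ⟨ε, hε⟩ : ∃ ε : ℤˣ, unitRoot C.cyclo Ch.σ₀ Ch.φ R.D.rbar + signCast ε = 0 := by
      rcases sq_eq_one_iff.1 (sub_eq_zero.1 (R.defect_rbar_mult Ch h hgood)) with hu | hu
      · exact ⟨-1, by rw [hu]; simp [signCast]⟩
      · exact ⟨1, by rw [hu]; simp [signCast]⟩
    obtain ⟨D⟩ := LevelSetting.exists_raisingData Ch.over_p hinert (χ := C.cyclo) (fun _ => rfl)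
      Ch.σ₀_mem Ch.unit Ch.frob (e := fun n => w n - X.extra n ⟨0, hnE ▸ one_pos⟩)
      (fun n => (hwz n).trans rfl) hX hTW hpM' H H' hplace hplace' B B' hB hB' ε hε
      (Finset.univ.filter fun v => ∃ i j, (x : PB.R →+* C.O) ((PB.rep (tame v) - 1) i j) ≠ 0)
    convert LiftingLevels.ker_le_of_raising B hnE l w hl B'
      (fun L n => by rw [hz0, map_zero]) (fun L n => by rw [hz0, map_zero]) hF
      H'.toBaseSetting.two (x : PB.R →+* C.O) hxt hxe D
  · obtain ⟨k, hk⟩ : ∃ k : ℕ, ∀ n, B'.act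
        (Finset.univ.filter fun v => ∃ i j, (x : PB.R →+* C.O) ((PB.rep (tame v) - 1) i j) ≠ 0)
        n ((w n - X.extra n ⟨0, hnE ▸ one_pos⟩) ^ k) = 0 := by
      set L₁ := Finset.univ.filter fun v : T =>
        ∃ i j, (x : PB.R →+* C.O) ((PB.rep (tame v) - 1) i j) ≠ 0
      have hnot : ∀ v : T, ¬ (v : ℕ) ∣ M' := fun v hd =>
        (Finset.mem_union.1 (hM'S v (hT v v.2).1 hd)).elim (hT v v.2).2.2
          (Finset.disjoint_left.1 hTU v.2)
      have hsqL : Squarefree (liftLevel M' (fun v : T => (v : ℕ)) L₁) :=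
        squarefree_liftLevel (qv := fun v : T => (v : ℕ)) hM' (fun v => (hT v v.2).1) Subtype.val_injective hnot L₁
      have : NeZero (liftLevel M' (fun v : T => (v : ℕ)) L₁) := ⟨hsqL.ne_zero⟩
      have : Subsingleton (CohLoc
          (awayMonoid (lamIdeal (Λ := C.O) (residue_surjective (R := C.O))
            (R.ordLevel Ch (T ∪ U)).Sigma (apLam W C.O)))
          (scalarRep (1 : (ZMod (liftLevel M' (fun v : T => (v : ℕ)) L₁))ˣ →* C.O) C.O)) :=
        not_nontrivial_iff_subsingleton.1 fun hV => hmod₀ (hlow L₁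
          (R.modular_of_nontrivial_odd h hbad
            (hthree.of_dvd (N := liftLevel M' (fun v : T => (v : ℕ)) L₁) (Dvd.intro _ rfl)) hsqL (fun q hq hd => by
            rcases (dvd_liftLevel_iff (fun v : T => (hT v v.2).1) hq).1 hd with hd | ⟨v, -, rfl⟩
            · exact hS₀' q hq hd
            · exact Finset.mem_union_left _
                (Finset.mem_union_right _ (Finset.mem_union_left _ v.2))) Ch.P _ hV))
      exact LevelSetting.exists_pow_act_eq_zero Ch.over_p hinert (χ := C.cyclo) (fun _ => rfl)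
        Ch.σ₀_mem Ch.unit Ch.frob (e := fun n => w n - X.extra n ⟨0, hnE ▸ one_pos⟩)
        (fun n => (hwz n).trans rfl) hX hTW hpM' H' hplace hplace' B' hB' L₁
    convert LiftingLevels.ker_le_of_new B' hnE l w hl
      (fun L n => by rw [hz0, map_zero]) hF H'.toBaseSetting.two (x : PB.R →+* C.O) hxt hxe
      ⟨k, hk⟩

end Fermat.Agent.Engine.Top

end
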