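import Fermat.Agent.Engine.Top.LiftSetting

/-!
# The settings for lifting at any odd `p`, with further primes allowed to ramify

As `Top/LiftSetting`, under `OddResidual` and with the condition `ThreeOK` on the level in place of
`5 ≤ p`.  The framed primes `T` and a set `U` of further primes are both allowed to ramify; the
prime divisors of the base level are in `Smin ∪ U ∪ {p}`.
-/

noncomputable section

open IsLocalRing Fermat.Agent.DefRing Fermat.Agent.Deform
open WeierstrassCurve.Affine

namespace Fermat.Agent.Engine.Top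

open HeckeModule TRep

local notation "Qbar" => AlgebraicClosure ℚ

variable {W : WeierstrassCurve ℤ} {p : ℕ} [Fact p.Prime]

namespace ResidualData

variable {C : Coeff p} (R : ResidualData W C)

/-- **The setting at a level**, `p` odd. -/
theorem baseSetting_odd (h : OddResidual W p) {S : Finset ℕ}
    (hbad : ∀ q : ℕ, q.Prime → (q : ℤ) ∣ W.Δ → q ≠ p → q ∈ Smin W p ∪ S) {N : ℕ}
    (hthree : HeckeModule.ThreeOK p N)
    (hN : Squarefree N) (hNS : ∀ q : ℕ, q.Prime → q ∣ N → q ∈ Smin W p ∪ S ∪ {p})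
    (P : ValuationSubring Qbar) (cl : Closed C.O (P.decompositionSubgroup ℚ × Fin 2 × Fin 2)) :
    BaseSetting p C.ι₀ N (apLam W C.O) (R.levelData S P cl) where
  three_le := by have := h.ne_two; have := (Fact.out : p.Prime).two_le; omega
  three := hthree
  p_mem := C.p_mem
  sigma ℓ hℓ hd := by
    rcases hℓ.dvd_mul.1 hd with hd | hd
    · exact hNS ℓ hℓ hd
    · exact Finset.mem_union_right _
        (Finset.mem_singleton.2 ((Nat.prime_dvd_prime_iff_eq hℓ Fact.out).1 hd))
  smin q hq := by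
    obtain ⟨hqp, -, -, hqne, -⟩ := mem_Smin.1 hq
    exact ⟨hqp, hqne, fun hd => Nat.squarefree_iff_prime_squarefree.1 hN q hqp hd,
      Finset.mem_union_left _ (Finset.mem_union_left _ hq)⟩
  det _ := rfl
  detbar σ := R.det_rbar h _ C.residue_cyclo σ
  cont := R.isCont_rbar h
  span := R.span_rbar h
  split := R.exists_eigenvalues
  trace_frob ℓ hℓ hℓS A hA σ hσ := by
    obtain ⟨hgood, hℓp⟩ := good_of_not_mem hbad hℓ hℓS
    exact R.trace_rbar_good hℓ hℓp hgood hA hσ

variable (Ch : PlaceChoice C)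

/-- The condition at the place, `p` odd. -/
theorem topPlaceHyp_odd (h : OddResidual W p)
    (hcase : ¬ W.IsGoodPrimeFor p ∨ ¬ (p : ℤ) ∣ W.apOfModel p) {S : Finset ℕ}
    (hbad : ∀ q : ℕ, q.Prime → (q : ℤ) ∣ W.Δ → q ≠ p → q ∈ Smin W p ∪ S) {N : ℕ}
    (hthree : HeckeModule.ThreeOK p N)
    (hN : Squarefree N) (hNS : ∀ q : ℕ, q.Prime → q ∣ N → q ∈ Smin W p ∪ S ∪ {p}) :
    TopPlaceHyp p C.ι₀ N (apLam W C.O) (R.ordLevel Ch S) :=
  topPlaceHyp_ordinary (R.baseSetting_odd h hbad hthree hN hNS Ch.P _)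
    (fun hd => Nat.squarefree_iff_prime_squarefree.1 hN p Fact.out hd) Ch.over_p rfl
    (R.isOrdinaryOn_rbar Ch h hcase)

/-- Inertia at `p` has residual trace `1 + det`, `p` odd. -/
theorem inertia_trace_rbar_odd (h : OddResidual W p)
    (hcase : ¬ W.IsGoodPrimeFor p ∨ ¬ (p : ℤ) ∣ W.apOfModel p) {σ : GQ}
    (hσ : σ ∈ Ch.P.inertiaSubgroupIn ℚ) :
    (R.D.rbar σ).trace = 1 + (R.D.rbar σ).det := by
  refine trace_eq_one_add ((Group.isUnit σ).map R.D.rbar) rfl ?_
  rw [R.det_rbar_algebraMap h σ]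
  exact R.isOrdinaryOn_rbar Ch h hcase σ hσ σ hσ

/-- `W` is residually modular where classes do not vanish, `p` odd. -/
theorem modular_of_nontrivial_odd (h : OddResidual W p) {S : Finset ℕ}
    (hbad : ∀ q : ℕ, q.Prime → (q : ℤ) ∣ W.Δ → q ≠ p → q ∈ Smin W p ∪ S) {N : ℕ} [NeZero N]
    (hthree : HeckeModule.ThreeOK p N)
    (hN : Squarefree N) (hNS : ∀ q : ℕ, q.Prime → q ∣ N → q ∈ Smin W p ∪ S ∪ {p})
    (P : ValuationSubring Qbar) (cl : Closed C.O (P.decompositionSubgroup ℚ × Fin 2 × Fin 2))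
    (hV : Nontrivial (BaseClasses (O := C.O) (residue_surjective (R := C.O))
      (R.levelData S P cl).Sigma (apLam W C.O) N)) :
    W.IsResiduallyModularOfLevel p N := by
  classical
  have H := R.baseSetting_odd h hbad hthree hN hNS P cl
  obtain ⟨O', _, _, _, _, _, hl, a, hocc, hcong⟩ := H.exists_system_of_nontrivial hV
  have hp' : (p : O') ∈ maximalIdeal O' := by
    rw [← map_natCast (algebraMap C.O O')]
    exact map_nonunit (algebraMap C.O O') _ C.p_mem
  have hinj := IsFractionRing.injective O' (FractionRing O')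
  refine isResiduallyModularOfLevel_of_occurs h.delta_ne_zero hp' hinj hocc ?_
    (R.levelData S P cl).Sigma fun ℓ hℓ hℓS => ?_
  · obtain ⟨l, hl1, hl2, -, hlS, hne⟩ :=
      H.exists_nonEisenstein _ (Finset.Subset.refl _) (Nat.pos_of_ne_zero (NeZero.ne N))
    refine ⟨l, hl1, hlS, hl2, fun he => hne ?_⟩
    have he' : a l = (l : O') + 1 := hinj (by simpa using he)
    have h1 := hcong l hl1 hlS
    rw [he', ← map_natCast (algebraMap C.O O'), ← map_one (algebraMap C.O O'), ← map_add,
      ← map_sub] at h1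
    have h2 : residue C.O ((l : C.O) + 1 - apLam W C.O l) = 0 :=
      (residue_eq_zero_iff _).2 fun hu => h1 (hu.map _)
    rw [map_sub, sub_eq_zero, map_add, map_natCast, map_one] at h2
    exact h2.symm
  · have h1 := hcong ℓ hℓ hℓS
    rwa [apLam, map_intCast] at h1

/-- Framed primes remain so when more primes are allowed to ramify. -/
theorem framedPrimes_levelData {S S' : Finset ℕ} {P : ValuationSubring Qbar}
    {cl : Closed C.O (P.decompositionSubgroup ℚ × Fin 2 × Fin 2)}
    {P' : ValuationSubring Qbar} {cl' : Closed C.O (P'.decompositionSubgroup ℚ × Fin 2 × Fin 2)}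
    {T : Type} {qv : T → ℕ} {frob tame : T → GQ}
    (hF : FramedPrimes p (R.levelData S P cl) qv frob tame) :
    FramedPrimes p (R.levelData S' P' cl') qv frob tame :=
  ⟨hF.prime, hF.ne_p, hF.place, hF.residual, hF.det_frob, hF.det_tame⟩

/-- **The setting for lifting**, `p` odd: framed primes `T`, further primes `U`. -/
theorem levelSetting_odd (h : OddResidual W p) {T U : Finset ℕ}
    (hT : ∀ q ∈ T, q.Prime ∧ q ≠ p ∧ q ∉ Smin W p) (hTU : Disjoint T U)
    (hbad : ∀ q : ℕ, q.Prime → (q : ℤ) ∣ W.Δ → q ≠ p → q ∈ Smin W p ∪ (T ∪ U)) {N : ℕ}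
    (hthree : HeckeModule.ThreeOK p N)
    (hN : Squarefree N) (hNS : ∀ q : ℕ, q.Prime → q ∣ N → q ∈ Smin W p ∪ U ∪ {p})
    (hmod : W.IsResiduallyModularOfLevel p N)
    (P : ValuationSubring Qbar) (cl : Closed C.O (P.decompositionSubgroup ℚ × Fin 2 × Fin 2))
    {frob tame : T → GQ}
    (hF : FramedPrimes p (R.levelData (T ∪ U) P cl) (fun v : T => (v : ℕ)) frob tame) :
    LevelSetting p C.ι₀ N (apLam W C.O) (fun v : T => (v : ℕ)) (R.levelData (T ∪ U) P cl)
      frob tame where
  toBaseSetting := R.baseSetting_odd h hbad hthree hN (fun q hq hd => by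
    have := hNS q hq hd
    simp only [Finset.mem_union] at this ⊢
    exact this.imp (Or.imp id Or.inr) id) P cl
  qv_inj := Subtype.val_injective
  framed := hF
  not_dvd v hd := by
    obtain ⟨hv, hvp, hvS⟩ := hT v v.2
    have := hNS v hv hd
    simp only [Finset.mem_union, Finset.mem_singleton] at this
    exact this.elim (fun h' => h'.elim hvS (Finset.disjoint_left.1 hTU v.2)) hvp
  sigma_qv v := Finset.mem_union_left _ (Finset.mem_union_right _ (Finset.mem_union_left _ v.2))
  ne_zero := hN.ne_zero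
  base := by
    have : NeZero N := ⟨hN.ne_zero⟩
    exact R.nontrivial_of_modular hbad (fun q hq hd => by
      have := hNS q hq hd
      simp only [Finset.mem_union] at this ⊢
      exact this.imp (Or.imp id Or.inr) id) P cl hmod

end ResidualData

end Fermat.Agent.Engine.Top

end
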